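/-
P-ES row 639 (E6-GAUSS), helper65: the Gauss closure `C(x)` of the model field is the Gauss ring.

`modelGauss (hQ : ModelQExpStatement N l jq) : ModelGaussStatement N l jq`.

* The elements of `E₁ = ModelField K₁ N` with `q`-expansion in the Gauss ring of `K₁((q))` form a
  valuation subring `mgVal` of `E₁` (Gauss normal form: `f = c * u`, `u` a Gauss unit), hence an
  integrally closed ring.
* (`→`) if `H(x) y = β` is integral over `A₁[x]` then `β ∈ mgVal`; `H(x)` is a unit of the Gauss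
  ring because its reduction `H̄(j)` is nonzero (`j` is transcendental over the residue field).
* (`←`) Gauss normal form `y = c a / b` with `c ∈ A₁`, and the `q`-expansion principle `hQ`.
-/
import Mathlib
import Fermat.Agent.H9.E6.Interfaces
import Fermat.Agent.H66.ESD.GaussNorm
import Fermat.Agent.H87.KL.KumGauss
import Fermat.Agent.H58.KL.ModelTr

set_option autoImplicit false
set_option linter.style.haveILetI false
set_option linter.unusedSectionVars false

noncomputable section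

namespace Fermat.Agent.H65

open Polynomial ModularCurve
open Fermat.Agent.H22.KL Fermat.Agent.H66 Fermat.Agent.H9.E6 Fermat.Agent.H87.KL

section gaussVal

variable {K₁ : Type} [Field K₁] [Algebra ℚ K₁] (A₁ : ValuationSubring K₁) (N : ℕ)

/-- Either `f` or `f⁻¹` lies in the Gauss ring. -/
theorem mg_mem_or_inv_mem (f : ModelField K₁ N) :
    (f : LaurentSeries K₁) ∈ vGaussRing A₁ ∨
      ((f⁻¹ : ModelField K₁ N) : LaurentSeries K₁) ∈ vGaussRing A₁ := by
  by_cases hf0 : f = 0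
  · left
    rw [hf0]
    exact (vGaussRing A₁).zero_mem
  have hf0' : (f : LaurentSeries K₁) ≠ 0 := fun h => hf0 (Subtype.ext h)
  obtain ⟨c, a, b, hc, -, -, hra, hrb, h⟩ := exists_gnf N A₁ f.2 hf0'
  have ha := vIota_mem_vGaussRing A₁ a
  have hb := vIota_mem_vGaussRing A₁ b
  have hainv : (vIota A₁ a)⁻¹ ∈ vGaussRing A₁ :=
    inv_mem_vGaussRing A₁ (x := ⟨_, ha⟩) (by rw [vGaussRed_vIota]; exact hra)
  have hbinv : (vIota A₁ b)⁻¹ ∈ vGaussRing A₁ :=
    inv_mem_vGaussRing A₁ (x := ⟨_, hb⟩) (by rw [vGaussRed_vIota]; exact hrb)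
  have hb0 := vIota_ne_zero_of_vRho_ne_zero A₁ hrb
  have ha0 := vIota_ne_zero_of_vRho_ne_zero A₁ hra
  have hcL : algebraMap K₁ (LaurentSeries K₁) c ≠ 0 := by
    rw [Ne, map_eq_zero]
    exact hc
  have hf : (f : LaurentSeries K₁) =
      algebraMap K₁ (LaurentSeries K₁) c * vIota A₁ a * (vIota A₁ b)⁻¹ := by
    rw [← h]
    field_simp
  rcases A₁.mem_or_inv_mem c with hcA | hcA
  · left
    rw [hf]
    exact mul_mem (mul_mem (algebraMap_mem_vGaussRing A₁ hcA) ha) hbinv
  · right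
    have : ((f⁻¹ : ModelField K₁ N) : LaurentSeries K₁) =
        algebraMap K₁ (LaurentSeries K₁) c⁻¹ * vIota A₁ b * (vIota A₁ a)⁻¹ := by
      have h1 : ((f⁻¹ : ModelField K₁ N) : LaurentSeries K₁) = (f : LaurentSeries K₁)⁻¹ := rfl
      rw [h1, hf, map_inv₀]
      field_simp
    rw [this]
    exact mul_mem (mul_mem (algebraMap_mem_vGaussRing A₁ hcA) hb) hainv

/-- The Gauss valuation ring of the model field. -/
def mgVal : ValuationSubring (ModelField K₁ N) where
  toSubring := (vGaussRing A₁).comap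
    (laurentBaseChange K₁ (modularFunctionFieldFull N)).val.toRingHom
  mem_or_inv_mem' := fun f => mg_mem_or_inv_mem A₁ N f

theorem mem_mgVal_iff (f : ModelField K₁ N) :
    f ∈ mgVal A₁ N ↔ (f : LaurentSeries K₁) ∈ vGaussRing A₁ := Iff.rfl

end gaussVal

section main

variable {K₁ : Type} [Field K₁] [Algebra ℚ K₁] (A₁ : ValuationSubring K₁) (N : ℕ)

/-- `coeffEmb K₁ jq = ι (j)`. -/
theorem mg_coeffEmb_jq : coeffEmb K₁ jq = vIota A₁ (jqModC ↥A₁) := by
  rw [vIota, coeffMap_jqModC, coeffEmb, ← jqModC_rat, coeffMap_jqModC]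

theorem mg_vRho_jq : vRho A₁ (jqModC ↥A₁) = jqModC (IsLocalRing.ResidueField ↥A₁) := by
  rw [vRho, coeffMap_jqModC]

theorem mg_transcendental_jqModC (k : Type*) [Field k] : Transcendental k (jqModC k) := by
  apply Fermat.Agent.H58.kltr_transcendental_of_order_ne_zero
  have hc : (jqModC k).coeff (-1 : ℤ) ≠ 0 := by
    rw [ModularCurve.coeff_jqModC_neg_one]
    exact one_ne_zero
  have := HahnSeries.order_le_of_coeff_ne_zero hc
  omega

variable {A₁ N}

/-- The coercion of `aeval x H` to Laurent series. -/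
theorem mg_coe_aeval (x : ModelField K₁ N) (H : (↥A₁)[X]) :
    letI := modelAlgebra K₁ A₁ N
    ((aeval x H : ModelField K₁ N) : LaurentSeries K₁) =
      ∑ i ∈ Finset.range (H.natDegree + 1),
        algebraMap K₁ (LaurentSeries K₁) ((H.coeff i : ↥A₁) : K₁) * (x : LaurentSeries K₁) ^ i := by
  letI := modelAlgebra K₁ A₁ N
  rw [aeval_eq_sum_range]
  rw [AddSubmonoidClass.coe_finsetSum]
  refine Finset.sum_congr rfl fun i _ => ?_
  rw [Algebra.smul_def]
  rfl

/-- `H(x)` lies in the Gauss ring and its reduction is `H̄(j)`. -/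
theorem mg_aeval_mem (x : ModelField K₁ N) (hx : (x : LaurentSeries K₁) = coeffEmb K₁ jq)
    (H : (↥A₁)[X]) :
    letI := modelAlgebra K₁ A₁ N
    ∃ h : ((aeval x H : ModelField K₁ N) : LaurentSeries K₁) ∈ vGaussRing A₁,
      vGaussRed A₁ ⟨_, h⟩ =
        aeval (jqModC (IsLocalRing.ResidueField ↥A₁)) (H.map (IsLocalRing.residue ↥A₁)) := by
  letI := modelAlgebra K₁ A₁ N
  have hxG : (x : LaurentSeries K₁) ∈ vGaussRing A₁ := by
    rw [hx, mg_coeffEmb_jq A₁]
    exact vIota_mem_vGaussRing A₁ _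
  have hxR : vGaussRed A₁ ⟨_, hxG⟩ = jqModC (IsLocalRing.ResidueField ↥A₁) := by
    rw [← mg_vRho_jq A₁, ← vGaussRed_vIota]
    congr 1
    apply Subtype.ext
    show (x : LaurentSeries K₁) = _
    rw [hx, mg_coeffEmb_jq A₁]
  have hterm : ∀ i, algebraMap K₁ (LaurentSeries K₁) ((H.coeff i : ↥A₁) : K₁) *
      (x : LaurentSeries K₁) ^ i ∈ vGaussRing A₁ := fun i =>
    mul_mem (algebraMap_mem_vGaussRing A₁ (H.coeff i).2) (pow_mem hxG i)
  have hmem : ((aeval x H : ModelField K₁ N) : LaurentSeries K₁) ∈ vGaussRing A₁ := by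
    rw [mg_coe_aeval]
    exact sum_mem fun i _ => hterm i
  refine ⟨hmem, ?_⟩
  have h1 : (⟨_, hmem⟩ : vGaussRing A₁) =
      ∑ i ∈ Finset.range (H.natDegree + 1),
        (⟨_, algebraMap_mem_vGaussRing A₁ (H.coeff i).2⟩ : vGaussRing A₁) * ⟨_, hxG⟩ ^ i := by
    apply Subtype.ext
    rw [AddSubmonoidClass.coe_finsetSum]
    exact mg_coe_aeval x H
  rw [h1, map_sum, aeval_def, eval₂_map, eval₂_eq_sum_range]
  refine Finset.sum_congr rfl fun i _ => ?_
  rw [map_mul, map_pow, hxR, vGaussRed_algebraMap A₁ (H.coeff i).2]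
  rfl

/-- A polynomial whose reduction vanishes is divisible by the uniformiser. -/
theorem mg_C_dvd_of_map_eq_zero [IsDiscreteValuationRing ↥A₁] {ϖ : ↥A₁} (hϖ : Irreducible ϖ)
    {H : (↥A₁)[X]} (h : H.map (IsLocalRing.residue ↥A₁) = 0) : C ϖ ∣ H := by
  rw [C_dvd_iff_dvd_coeff]
  intro i
  have h1 : IsLocalRing.residue ↥A₁ (H.coeff i) = 0 := by
    rw [← coeff_map, h, coeff_zero]
  rw [IsLocalRing.residue_eq_zero_iff, hϖ.maximalIdeal_eq, Ideal.mem_span_singleton] at h1
  exact h1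

end main

/-- **E6-GAUSS.** The Gauss closure of the model field is the Gauss ring. -/
theorem modelGauss (N l : ℕ) [NeZero N] (_hl : l.Prime) (_hN : ¬ l ∣ N)
    (hQ : Fermat.Agent.H22.KL.ModelQExpStatement N l jq) :
    Fermat.Agent.H9.E6.ModelGaussStatement N l jq := by
  intro K₁ _ _ _ A₁ _ hlA ϖ hϖ x hx y
  letI := modelAlgebra K₁ A₁ N
  haveI := modelAlgebra_isScalarTower K₁ A₁ N
  have hxtr : Transcendental ↥A₁ x := Fermat.Agent.H58.modelTranscendental_jq N K₁ ↥A₁ x hx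
  have hϖp : Prime ϖ := hϖ.prime
  constructor
  · -- `C(x) ⊆` Gauss ring
    intro hy
    obtain ⟨H, hH, hint⟩ := (mem_gaussClosure_iff hxtr ϖ y).mp hy
    obtain ⟨hHmem, hHred⟩ := mg_aeval_mem x hx H
    -- `H(x)` is a Gauss unit
    have hHmap : H.map (IsLocalRing.residue ↥A₁) ≠ 0 := fun h =>
      hH (mg_C_dvd_of_map_eq_zero hϖ h)
    have hHred0 : vGaussRed A₁ ⟨_, hHmem⟩ ≠ 0 := by
      rw [hHred]
      intro h0
      exact hHmap ((transcendental_iff.mp
        (mg_transcendental_jqModC (IsLocalRing.ResidueField ↥A₁))) _ h0)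
    have hHinv := inv_mem_vGaussRing A₁ hHred0
    have hH0 : ((aeval x H : ModelField K₁ N) : LaurentSeries K₁) ≠ 0 := by
      intro h0
      apply hHred0
      have : (⟨_, hHmem⟩ : vGaussRing A₁) = 0 := Subtype.ext h0
      rw [this, map_zero]
    -- `β = H(x) y` is integral over the Gauss valuation ring
    have hrange : ∀ G : (↥A₁)[X], evX (A := ↥A₁) x G ∈ (mgVal A₁ N).toSubring := fun G =>
      (mg_aeval_mem x hx G).1
    let g : (↥A₁)[X] →+* ↥(mgVal A₁ N) :=
      (evX (A := ↥A₁) x).codRestrict (mgVal A₁ N).toSubring hrange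
    have hcomp : (algebraMap ↥(mgVal A₁ N) (ModelField K₁ N)).comp g = evX (A := ↥A₁) x := by
      ext <;> rfl
    obtain ⟨p, hp, hpy⟩ := hint
    have hβint : IsIntegral ↥(mgVal A₁ N) (aeval x H * y) := by
      refine ⟨p.map g, hp.map g, ?_⟩
      rw [eval₂_map, hcomp]
      exact hpy
    obtain ⟨β, hβ⟩ := IsIntegrallyClosed.isIntegral_iff.mp hβint
    have hβG : ((aeval x H * y : ModelField K₁ N) : LaurentSeries K₁) ∈ vGaussRing A₁ := by
      rw [← hβ]
      exact β.2
    have hy' : (y : LaurentSeries K₁) =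
        ((aeval x H : ModelField K₁ N) : LaurentSeries K₁)⁻¹ *
          ((aeval x H * y : ModelField K₁ N) : LaurentSeries K₁) := by
      have : ((aeval x H * y : ModelField K₁ N) : LaurentSeries K₁) =
          ((aeval x H : ModelField K₁ N) : LaurentSeries K₁) * (y : LaurentSeries K₁) := rfl
      rw [this, ← mul_assoc, inv_mul_cancel₀ hH0, one_mul]
    rw [hy']
    exact mul_mem hHinv hβG
  · -- Gauss ring `⊆ C(x)`
    intro hy
    by_cases hy0 : y = 0
    · rw [hy0, mem_gaussClosure_iff hxtr ϖ]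
      have := GC.const ϖ hϖp x (0 : ↥A₁)
      rwa [map_zero] at this
    have hy0' : (y : LaurentSeries K₁) ≠ 0 := fun h => hy0 (Subtype.ext h)
    obtain ⟨c, a, b, hc, haF, hbF, hra, hrb, h⟩ := exists_gnf N A₁ y.2 hy0'
    have hb0 := vIota_ne_zero_of_vRho_ne_zero A₁ hrb
    -- `c ∈ A₁`
    have hcA : c ∈ A₁ := by
      refine mem_of_algebraMap_mul_mem A₁ (u := ⟨_, vIota_mem_vGaussRing A₁ a⟩)
        (by rw [vGaussRed_vIota]; exact hra) ?_
      show algebraMap K₁ (LaurentSeries K₁) c * vIota A₁ a ∈ vGaussRing A₁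
      rw [← h]
      exact mul_mem hy (vIota_mem_vGaussRing A₁ b)
    let a' : ModelField K₁ N := ⟨algebraMap K₁ (LaurentSeries K₁) c * vIota A₁ a,
      mul_mem (IntermediateField.algebraMap_mem _ c) haF⟩
    let b' : ModelField K₁ N := ⟨vIota A₁ b, hbF⟩
    have hb'0 : b' ≠ 0 := fun h0 => hb0 (congrArg Subtype.val h0)
    have hyab : y = a' / b' := by
      rw [eq_div_iff hb'0]
      exact Subtype.ext h
    rw [hyab]
    refine hQ K₁ ↥A₁ hlA ϖ hϖ x hx a' b' ?_ ?_ ?_
    · intro n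
      refine ⟨⟨c, hcA⟩ * a.coeff n, ?_⟩
      show ((⟨c, hcA⟩ * a.coeff n : ↥A₁) : K₁) =
        (algebraMap K₁ (LaurentSeries K₁) c * vIota A₁ a).coeff n
      rw [coeff_algebraMap_mul, vIota_coeff]
      rfl
    · intro n
      exact ⟨b.coeff n, rfl⟩
    · obtain ⟨m, hm⟩ := (vRho_ne_zero_iff A₁ b).mp hrb
      exact ⟨m, b.coeff m, hm, rfl⟩

end Fermat.Agent.H65
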