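/-
P-ES row 923 (E6-GAUSS-GEN), helper65: the Gauss closure `C(x)` of the model field is the Gauss
ring, for a general coordinate `x₀` with integral `q`-expansion `xZ`.

`modelGaussGen : ModelGaussGenStatement`.

Same proof as `modelGauss` (the case `x₀ = j`), with `jqModC R` replaced by
`coeffMap (Int.castRingHom R) xZ`.
-/
import Mathlib
import Fermat.Agent.H65.E6.ModelGauss
import Fermat.Agent.H9.E6.Interfaces4

set_option autoImplicit false
set_option linter.style.haveILetI false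
set_option linter.unusedSectionVars false

noncomputable section

namespace Fermat.Agent.H65

open Polynomial ModularCurve
open Fermat.Agent.H22.KL Fermat.Agent.H66 Fermat.Agent.H9.E6 Fermat.Agent.H87.KL

section main

variable {K₁ : Type} [Field K₁] [Algebra ℚ K₁] (A₁ : ValuationSubring K₁) (N : ℕ)

/-- `coeffEmb K₁ x₀ = ι (x_{A₁})`. -/
theorem mgg_coeffEmb {x₀ : LaurentSeries ℚ} {xZ : LaurentSeries ℤ}
    (hxZ : coeffMap (Int.castRingHom ℚ) xZ = x₀) :
    coeffEmb K₁ x₀ = vIota A₁ (coeffMap (Int.castRingHom ↥A₁) xZ) := by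
  rw [← hxZ, coeffEmb, vIota, coeffMap_coeffMap, coeffMap_coeffMap]
  exact coeffMap_congr (RingHom.ext_int _ _) xZ

theorem mgg_vRho (xZ : LaurentSeries ℤ) :
    vRho A₁ (coeffMap (Int.castRingHom ↥A₁) xZ) =
      coeffMap (Int.castRingHom (IsLocalRing.ResidueField ↥A₁)) xZ := by
  rw [vRho, coeffMap_coeffMap]
  exact coeffMap_congr (RingHom.ext_int _ _) xZ

variable {A₁ N}

/-- `H(x)` lies in the Gauss ring and its reduction is `H̄(x̄)`. -/
theorem mgg_aeval_mem (xZ : LaurentSeries ℤ) (x : ModelField K₁ N)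
    (hx : (x : LaurentSeries K₁) = vIota A₁ (coeffMap (Int.castRingHom ↥A₁) xZ))
    (H : (↥A₁)[X]) :
    letI := modelAlgebra K₁ A₁ N
    ∃ h : ((aeval x H : ModelField K₁ N) : LaurentSeries K₁) ∈ vGaussRing A₁,
      vGaussRed A₁ ⟨_, h⟩ =
        aeval (coeffMap (Int.castRingHom (IsLocalRing.ResidueField ↥A₁)) xZ)
          (H.map (IsLocalRing.residue ↥A₁)) := by
  letI := modelAlgebra K₁ A₁ N
  have hxG : (x : LaurentSeries K₁) ∈ vGaussRing A₁ := by
    rw [hx]
    exact vIota_mem_vGaussRing A₁ _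
  have hxR : vGaussRed A₁ ⟨_, hxG⟩ =
      coeffMap (Int.castRingHom (IsLocalRing.ResidueField ↥A₁)) xZ := by
    rw [← mgg_vRho A₁, ← vGaussRed_vIota]
    congr 1
    apply Subtype.ext
    show (x : LaurentSeries K₁) = _
    rw [hx]
  have hterm : ∀ i, algebraMap K₁ (LaurentSeries K₁) ((H.coeff i : ↥A₁) : K₁) *
      (x : LaurentSeries K₁) ^ i ∈ vGaussRing A₁ := fun i =>
    mul_mem (algebraMap_mem_vGaussRing A₁ (H.coeff i).2) (pow_mem hxG i)
  have hmem : ((aeval x H : ModelField K₁ N) : LaurentSeries K₁) ∈ vGaussRing A₁ := by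
    rw [mg_coe_aeval]
    exact sum_mem fun i _ => hterm i
  refine ⟨hmem, ?_⟩
  have h1 : (⟨_, hmem⟩ : vGaussRing A₁) =
      ∑ i ∈ Finset.range (H.natDegree + 1),
        (⟨_, algebraMap_mem_vGaussRing A₁ (H.coeff i).2⟩ : vGaussRing A₁) * ⟨_, hxG⟩ ^ i := by
    apply Subtype.ext
    rw [AddSubmonoidClass.coe_finsetSum]
    exact mg_coe_aeval x H
  rw [h1, map_sum, aeval_def, eval₂_map, eval₂_eq_sum_range]
  refine Finset.sum_congr rfl fun i _ => ?_
  rw [map_mul, map_pow, hxR, vGaussRed_algebraMap A₁ (H.coeff i).2]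
  rfl

end main

/-- **E6-GAUSS, general coordinate.** The Gauss closure of the model field is the Gauss ring. -/
theorem modelGaussGen : Fermat.Agent.H9.E6.ModelGaussGenStatement := by
  intro N l _ x₀ xZ hxZ hord hTr hQ K₁ _ _ _ A₁ _ hlA ϖ hϖ x hx y
  letI := modelAlgebra K₁ A₁ N
  haveI := modelAlgebra_isScalarTower K₁ A₁ N
  have hxtr : Transcendental ↥A₁ x := hTr K₁ ↥A₁ x hx
  have hx' : (x : LaurentSeries K₁) = vIota A₁ (coeffMap (Int.castRingHom ↥A₁) xZ) := by
    rw [hx]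
    exact mgg_coeffEmb A₁ hxZ
  have hxk : Transcendental (IsLocalRing.ResidueField ↥A₁)
      (coeffMap (Int.castRingHom (IsLocalRing.ResidueField ↥A₁)) xZ) :=
    Fermat.Agent.H58.kltr_transcendental_of_order_ne_zero _
      (hord (IsLocalRing.ResidueField ↥A₁))
  have hϖp : Prime ϖ := hϖ.prime
  constructor
  · -- `C(x) ⊆` Gauss ring
    intro hy
    obtain ⟨H, hH, hint⟩ := (mem_gaussClosure_iff hxtr ϖ y).mp hy
    obtain ⟨hHmem, hHred⟩ := mgg_aeval_mem xZ x hx' H
    -- `H(x)` is a Gauss unit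
    have hHmap : H.map (IsLocalRing.residue ↥A₁) ≠ 0 := fun h =>
      hH (mg_C_dvd_of_map_eq_zero hϖ h)
    have hHred0 : vGaussRed A₁ ⟨_, hHmem⟩ ≠ 0 := by
      rw [hHred]
      intro h0
      exact hHmap ((transcendental_iff.mp hxk) _ h0)
    have hHinv := inv_mem_vGaussRing A₁ hHred0
    have hH0 : ((aeval x H : ModelField K₁ N) : LaurentSeries K₁) ≠ 0 := by
      intro h0
      apply hHred0
      have : (⟨_, hHmem⟩ : vGaussRing A₁) = 0 := Subtype.ext h0
      rw [this, map_zero]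
    -- `β = H(x) y` is integral over the Gauss valuation ring
    have hrange : ∀ G : (↥A₁)[X], evX (A := ↥A₁) x G ∈ (mgVal A₁ N).toSubring := fun G =>
      (mgg_aeval_mem xZ x hx' G).1
    let g : (↥A₁)[X] →+* ↥(mgVal A₁ N) :=
      (evX (A := ↥A₁) x).codRestrict (mgVal A₁ N).toSubring hrange
    have hcomp : (algebraMap ↥(mgVal A₁ N) (ModelField K₁ N)).comp g = evX (A := ↥A₁) x := by
      ext <;> rfl
    obtain ⟨p, hp, hpy⟩ := hint
    have hβint : IsIntegral ↥(mgVal A₁ N) (aeval x H * y) := by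
      refine ⟨p.map g, hp.map g, ?_⟩
      rw [eval₂_map, hcomp]
      exact hpy
    obtain ⟨β, hβ⟩ := IsIntegrallyClosed.isIntegral_iff.mp hβint
    have hβG : ((aeval x H * y : ModelField K₁ N) : LaurentSeries K₁) ∈ vGaussRing A₁ := by
      rw [← hβ]
      exact β.2
    have hy' : (y : LaurentSeries K₁) =
        ((aeval x H : ModelField K₁ N) : LaurentSeries K₁)⁻¹ *
          ((aeval x H * y : ModelField K₁ N) : LaurentSeries K₁) := by
      have : ((aeval x H * y : ModelField K₁ N) : LaurentSeries K₁) =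
          ((aeval x H : ModelField K₁ N) : LaurentSeries K₁) * (y : LaurentSeries K₁) := rfl
      rw [this, ← mul_assoc, inv_mul_cancel₀ hH0, one_mul]
    rw [hy']
    exact mul_mem hHinv hβG
  · -- Gauss ring `⊆ C(x)`
    intro hy
    by_cases hy0 : y = 0
    · rw [hy0, mem_gaussClosure_iff hxtr ϖ]
      have := GC.const ϖ hϖp x (0 : ↥A₁)
      rwa [map_zero] at this
    have hy0' : (y : LaurentSeries K₁) ≠ 0 := fun h => hy0 (Subtype.ext h)
    obtain ⟨c, a, b, hc, haF, hbF, hra, hrb, h⟩ := exists_gnf N A₁ y.2 hy0'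
    have hb0 := vIota_ne_zero_of_vRho_ne_zero A₁ hrb
    -- `c ∈ A₁`
    have hcA : c ∈ A₁ := by
      refine mem_of_algebraMap_mul_mem A₁ (u := ⟨_, vIota_mem_vGaussRing A₁ a⟩)
        (by rw [vGaussRed_vIota]; exact hra) ?_
      show algebraMap K₁ (LaurentSeries K₁) c * vIota A₁ a ∈ vGaussRing A₁
      rw [← h]
      exact mul_mem hy (vIota_mem_vGaussRing A₁ b)
    let a' : ModelField K₁ N := ⟨algebraMap K₁ (LaurentSeries K₁) c * vIota A₁ a,
      mul_mem (IntermediateField.algebraMap_mem _ c) haF⟩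
    let b' : ModelField K₁ N := ⟨vIota A₁ b, hbF⟩
    have hb'0 : b' ≠ 0 := fun h0 => hb0 (congrArg Subtype.val h0)
    have hyab : y = a' / b' := by
      rw [eq_div_iff hb'0]
      exact Subtype.ext h
    rw [hyab]
    refine hQ K₁ ↥A₁ hlA ϖ hϖ x hx a' b' ?_ ?_ ?_
    · intro n
      refine ⟨⟨c, hcA⟩ * a.coeff n, ?_⟩
      show ((⟨c, hcA⟩ * a.coeff n : ↥A₁) : K₁) =
        (algebraMap K₁ (LaurentSeries K₁) c * vIota A₁ a).coeff n
      rw [coeff_algebraMap_mul, vIota_coeff]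
      rfl
    · intro n
      exact ⟨b.coeff n, rfl⟩
    · obtain ⟨m, hm⟩ := (vRho_ne_zero_iff A₁ b).mp hrb
      exact ⟨m, b.coeff m, hm, rfl⟩

end Fermat.Agent.H65
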