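/-
P-ES row 923 (E6-GAUSS-GEN), helper65: the instances of `modelGaussGen` for the Hauptmoduln
`t₂` (level `2`) and `t₃` (level `3`), unconditional for every prime `ℓ ∤ N`.
-/
import Fermat.Agent.H65.E6.ModelGaussGen
import Fermat.Agent.H87.KL.GaussCoordFinal
import Fermat.Agent.H17.ESD.T2Model
import Fermat.Agent.H1.ESD.T3Rat

set_option autoImplicit false

namespace Fermat.Agent.H65

open ModularCurve

/-- **E6-GAUSS for `x = t₂`**: the Gauss closure of the model field is the Gauss ring. -/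
theorem modelGauss_t2S (N l : ℕ) [NeZero N] (hl : l.Prime) (hN : ¬ l ∣ N) :
    Fermat.Agent.H9.E6.ModelGaussStatement N l (Fermat.Agent.H17.ESD.t2S ℚ) :=
  modelGaussGen N l (Fermat.Agent.H17.ESD.t2S ℚ) (Fermat.Agent.H17.ESD.t2S ℤ)
    (Fermat.Agent.H17.ESD.coeffMap_t2S _)
    (fun k _ => by
      rw [Fermat.Agent.H17.ESD.coeffMap_t2S, Fermat.Agent.H17.ESD.t2S_order]
      norm_num)
    (Fermat.Agent.H87.KL.modelTranscendental_t2S N)
    (Fermat.Agent.H87.KL.modelQExp_t2S N l hl hN)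

/-- **E6-GAUSS for `x = t₃`**: the Gauss closure of the model field is the Gauss ring. -/
theorem modelGauss_t3 (N l : ℕ) [NeZero N] (hl : l.Prime) (hN : ¬ l ∣ N) :
    Fermat.Agent.H9.E6.ModelGaussStatement N l (Fermat.Agent.H1.ESD.t3 ℚ) :=
  modelGaussGen N l (Fermat.Agent.H1.ESD.t3 ℚ) (Fermat.Agent.H1.ESD.t3 ℤ)
    (Fermat.Agent.H1.ESD.coeffMap_t3 _)
    (fun k _ => by
      rw [Fermat.Agent.H1.ESD.coeffMap_t3, Fermat.Agent.H1.ESD.order_t3]
      norm_num)
    (Fermat.Agent.H87.KL.modelTranscendental_t3S N)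
    (Fermat.Agent.H87.KL.modelQExp_t3S N l hl hN)

end Fermat.Agent.H65
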