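/-
P-ES row 639 (E6-GAUSS), helper65: the unconditional form, using helper48's `modelQExp_j`.
-/
import Fermat.Agent.H65.E6.ModelGauss
import Fermat.Agent.H48.KL.QExpFinal

set_option autoImplicit false

namespace Fermat.Agent.H65

open ModularCurve

/-- **E6-GAUSS**, unconditional: the Gauss closure of the model field is the Gauss ring. -/
theorem modelGauss_j (N l : ℕ) [NeZero N] (hl : l.Prime) (hN : ¬ l ∣ N) :
    Fermat.Agent.H9.E6.ModelGaussStatement N l jq :=
  modelGauss N l hl hN (Fermat.Agent.H48.QExp.modelQExp_j N l hl hN)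

end Fermat.Agent.H65
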